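/-
Shared library (owner helper208): the Hauptmoduln `h₄ = (η(4z)/η(z))^8` of `X₀(4)` and
`h₉ = (η(9z)/η(z))^3` of `X₀(9)` as formal `q`-series built from the Prelude's `etaProd`
(`t₄ = 1 / h₄`, `t₉ = 1 / h₉` in the classical normalisation).  Definitions only.
-/
import Fermat.Agent.Lib.Hauptmodul.Defs

set_option autoImplicit false

noncomputable section

namespace Fermat.Agent.Lib.Hauptmodul

open ModularCurve

/-- `∏ ((1 - q^{4n}) / (1 - q^n))^8` -/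
def u4Z : PowerSeries ℤ := (dilZ 4 etaProd * etaProdInv) ^ 8

/-- `∏ ((1 - q^{9n}) / (1 - q^n))^3` -/
def u9Z : PowerSeries ℤ := (dilZ 9 etaProd * etaProdInv) ^ 3

/-- `h₄ = q ∏ ((1 - q^{4n}) / (1 - q^n))^8 = (η(4z)/η(z))^8` -/
def h4Z : PowerSeries ℤ := PowerSeries.X * u4Z

/-- `h₉ = q ∏ ((1 - q^{9n}) / (1 - q^n))^3 = (η(9z)/η(z))^3` -/
def h9Z : PowerSeries ℤ := PowerSeries.X * u9Z

/-- `h₄` as a Laurent series over `ℚ` -/
def h4q : LaurentSeries ℚ := toL ℚ h4Z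

/-- `h₉` as a Laurent series over `ℚ` -/
def h9q : LaurentSeries ℚ := toL ℚ h9Z

end Fermat.Agent.Lib.Hauptmodul
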