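/-
The eta identities of level `4` and `9` in `ℤ[[q]]` (owner helper208):

* `η(2z)^24 = η(z)^16 η(4z)^8 + 16 η(z)^8 η(4z)^16`,
* `η(3z)^12 = η(z)^3 η(9z)^3 (η(z)^6 + 9 η(z)^3 η(9z)^3 + 27 η(9z)^6)`,

and their consequences `h₂ = h₄ (1 + 16 h₄)`, `h₂(q²) (1 + 16 h₄) = h₄²`,
`h₃ = h₉ (1 + 9 h₉ + 27 h₉²)`, `h₃(q³) (1 + 9 h₉ + 27 h₉²) = h₉³`.

No new Sturm computation: `j(q²)` (resp. `j(q³)`) is computed in two ways with the identities of
`Lib/Hauptmodul/IdentZ.lean`, and the resulting polynomial relation is factored.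
-/
import Fermat.Agent.Lib.Hauptmodul49.Defs
import Fermat.Agent.Lib.Hauptmodul.IdentZ

set_option autoImplicit false

noncomputable section

namespace Fermat.Agent.Lib.Hauptmodul

open ModularCurve

local notation "E3" => (eisenstein4 ^ 3 : PowerSeries ℤ)
local notation "cc" => (PowerSeries.C : ℤ →+* PowerSeries ℤ)
local notation "XX" => (PowerSeries.X : PowerSeries ℤ)
local notation "ee" => (etaProd : PowerSeries ℤ)

theorem dilZ_dilZ (a b : ℕ) [NeZero a] [NeZero b] (P : PowerSeries ℤ) :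
    dilZ a (dilZ b P) = dilZ (a * b) P := by
  ext n
  simp only [dilZ, PowerSeries.coeff_mk]
  by_cases ha : a ∣ n
  · obtain ⟨m, rfl⟩ := ha
    rw [if_pos (Dvd.intro m rfl), Nat.mul_div_cancel_left _ (NeZero.pos a)]
    by_cases hb : b ∣ m
    · obtain ⟨k, rfl⟩ := hb
      rw [if_pos (Dvd.intro k rfl), if_pos ⟨k, by ring⟩, Nat.mul_div_cancel_left _ (NeZero.pos b),
        ← mul_assoc, Nat.mul_div_cancel_left _ (Nat.mul_pos (NeZero.pos a) (NeZero.pos b))]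
    · rw [if_neg hb, if_neg]
      intro h
      exact hb ((Nat.mul_dvd_mul_iff_left (NeZero.pos a)).1 h)
  · rw [if_neg ha, if_neg]
    intro h
    exact ha (dvd_of_mul_right_dvd h)

theorem dilZ_C (d : ℕ) (c : ℤ) : dilZ d (cc c) = cc c := by
  ext n
  simp only [dilZ, PowerSeries.coeff_mk, PowerSeries.coeff_C]
  by_cases hn : n = 0
  · subst hn; simp
  · rw [if_neg hn]
    split_ifs with h1 h2
    · exfalso
      obtain ⟨m, rfl⟩ := h1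
      rcases Nat.eq_zero_or_pos d with rfl | hd
      · simp at hn
      · rw [Nat.mul_div_cancel_left _ hd] at h2
        subst h2
        simp at hn
    · rfl
    · rfl

/-- extraction of a cube root: fixed by the constant coefficients -/
theorem eq_of_cube_eq_cube {P Q : PowerSeries ℤ} (h : P ^ 3 = Q ^ 3)
    (hP : PowerSeries.constantCoeff P = 1) (hQ : PowerSeries.constantCoeff Q = 1) : P = Q := by
  have h1 : (P - Q) * (P ^ 2 + P * Q + Q ^ 2) = 0 := by linear_combination h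
  rcases mul_eq_zero.mp h1 with h2 | h2
  · exact sub_eq_zero.mp h2
  · exfalso
    have := congrArg (PowerSeries.constantCoeff (R := ℤ)) h2
    simp [hP, hQ] at this

theorem ne_zero_of_constantCoeff {P : PowerSeries ℤ} {c : ℤ} (hc : c ≠ 0)
    (hP : PowerSeries.constantCoeff P = c) : P ≠ 0 := by
  rintro rfl
  rw [map_zero] at hP
  exact hc hP.symm

/-- `η(2z)^24 = η(z)^16 η(4z)^8 + 16 η(z)^8 η(4z)^16` -/
theorem eta4 : dilZ 2 ee ^ 24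
    = ee ^ 8 * dilZ 4 ee ^ 8 * (ee ^ 8 + 16 * XX * dilZ 4 ee ^ 8) := by
  have ha := congrArg (dilZ 2) identZ2a
  have hb := identZ2b
  simp only [dilZ_mul, dilZ_pow, dilZ_add, dilZ_dilZ, dilZ_C, dilZ_X] at ha
  norm_num at ha
  have c16 : cc 16 = 16 := map_ofNat cc 16
  rw [c16] at hb
  set e1 := ee with he1
  set e2 := dilZ 2 ee with he2
  set e4 := dilZ 4 ee with he4
  set D := dilZ 2 eisenstein4 with hD
  have k1 : PowerSeries.constantCoeff e1 = 1 := constantCoeff_etaProd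
  have k2 : PowerSeries.constantCoeff e2 = 1 := by rw [he2, constantCoeff_dilZ, k1]
  have k4 : PowerSeries.constantCoeff e4 = 1 := by rw [he4, constantCoeff_dilZ, k1]
  have hb' : D ^ 3 * e1 ^ 24 * e2 ^ 24 = (e1 ^ 24 + 16 * XX * e2 ^ 24) ^ 3 := by
    rw [← hb, dilZ_pow]
  have key : ((e1 ^ 24 + 16 * XX * e2 ^ 24) * e4 ^ 8) ^ 3
      = ((e2 ^ 24 + 256 * XX ^ 2 * e4 ^ 24) * e1 ^ 8) ^ 3 := by
    linear_combination (-(e4 ^ 24)) * hb' + e1 ^ 24 * ha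
  have key2 := eq_of_cube_eq_cube key (by simp [k1, k2, k4]) (by simp [k1, k2, k4])
  have hne : e1 ^ 8 - 16 * XX * e4 ^ 8 ≠ 0 :=
    ne_zero_of_constantCoeff one_ne_zero (by simp [k1, k4])
  apply mul_left_cancel₀ hne
  linear_combination (-1 : PowerSeries ℤ) * key2

/-- `η(3z)^12 = η(z)^3 η(9z)^3 (η(z)^6 + 9 η(z)^3 η(9z)^3 + 27 η(9z)^6)` -/
theorem eta9 : dilZ 3 ee ^ 12
    = ee ^ 3 * dilZ 9 ee ^ 3 *
      (ee ^ 6 + 9 * XX * (ee ^ 3 * dilZ 9 ee ^ 3) + 27 * XX ^ 2 * dilZ 9 ee ^ 6) := by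
  have ha := congrArg (dilZ 3) identZ3a
  have hb := identZ3b
  simp only [dilZ_mul, dilZ_pow, dilZ_add, dilZ_dilZ, dilZ_C, dilZ_X] at ha
  norm_num at ha
  have c27 : cc 27 = 27 := map_ofNat cc 27
  have c3 : cc 3 = 3 := map_ofNat cc 3
  rw [c27, c3] at hb
  set e1 := ee with he1
  set e3 := dilZ 3 ee with he3
  set e9 := dilZ 9 ee with he9
  set D := dilZ 3 eisenstein4 with hD
  have k1 : PowerSeries.constantCoeff e1 = 1 := constantCoeff_etaProd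
  have k3 : PowerSeries.constantCoeff e3 = 1 := by rw [he3, constantCoeff_dilZ, k1]
  have k9 : PowerSeries.constantCoeff e9 = 1 := by rw [he9, constantCoeff_dilZ, k1]
  have hb' : D ^ 3 * e1 ^ 12 * e3 ^ 12
      = (e1 ^ 12 + 27 * XX * e3 ^ 12) * (e1 ^ 12 + 3 * XX * e3 ^ 12) ^ 3 := by
    rw [← hb, dilZ_pow]
  set A := e3 ^ 12 with hA
  set p := e1 ^ 3 with hp
  set w := e9 ^ 3 with hw
  have kA : PowerSeries.constantCoeff A = 1 := by simp [hA, k3]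
  have kp : PowerSeries.constantCoeff p = 1 := by simp [hp, k1]
  have kw : PowerSeries.constantCoeff w = 1 := by simp [hw, k9]
  have e1_12 : e1 ^ 12 = p ^ 4 := by rw [hp]; ring
  have e9_12 : e9 ^ 12 = w ^ 4 := by rw [hw]; ring
  rw [e1_12] at hb'
  rw [e9_12] at ha
  have G : (p ^ 4 - 729 * XX ^ 4 * w ^ 4) *
      ((A + w * p ^ 3 - 9 * XX * w ^ 2 * p ^ 2 + 27 * XX ^ 2 * w ^ 3 * p) *
      (A ^ 2 + 18 * XX * w ^ 2 * p ^ 2 * A + w ^ 2 * p ^ 6 + 27 * XX ^ 2 * w ^ 4 * p ^ 4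
        + 729 * XX ^ 4 * w ^ 6 * p ^ 2)) *
      (A - w * p ^ 3 - 9 * XX * w ^ 2 * p ^ 2 - 27 * XX ^ 2 * w ^ 3 * p) = 0 := by
    linear_combination (w ^ 4) * hb' - (p ^ 4) * ha
  have n1 : p ^ 4 - 729 * XX ^ 4 * w ^ 4 ≠ 0 :=
    ne_zero_of_constantCoeff one_ne_zero (by simp [kp, kw])
  have n2 : A + w * p ^ 3 - 9 * XX * w ^ 2 * p ^ 2 + 27 * XX ^ 2 * w ^ 3 * p ≠ 0 :=
    ne_zero_of_constantCoeff (c := 2) (by norm_num) (by simp [kA, kp, kw])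
  have n3 : A ^ 2 + 18 * XX * w ^ 2 * p ^ 2 * A + w ^ 2 * p ^ 6 + 27 * XX ^ 2 * w ^ 4 * p ^ 4
        + 729 * XX ^ 4 * w ^ 6 * p ^ 2 ≠ 0 :=
    ne_zero_of_constantCoeff (c := 2) (by norm_num) (by simp [kA, kp, kw])
  have h0 := (mul_eq_zero.mp G).resolve_left (mul_ne_zero n1 (mul_ne_zero n2 n3))
  have e1_6 : e1 ^ 6 = p ^ 2 := by rw [hp]; ring
  have e9_6 : e9 ^ 6 = w ^ 2 := by rw [hw]; ring
  rw [e1_6, e9_6]
  linear_combination h0

theorem constantCoeff_u4Z : PowerSeries.constantCoeff u4Z = 1 := by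
  rw [u4Z, map_pow, map_mul, constantCoeff_dilZ, constantCoeff_etaProd, constantCoeff_etaProdInv,
    one_mul, one_pow]

theorem constantCoeff_u9Z : PowerSeries.constantCoeff u9Z = 1 := by
  rw [u9Z, map_pow, map_mul, constantCoeff_dilZ, constantCoeff_etaProd, constantCoeff_etaProdInv,
    one_mul, one_pow]

theorem h4Z_ne_zero : h4Z ≠ 0 :=
  mul_ne_zero PowerSeries.X_ne_zero (ne_zero_of_constantCoeff one_ne_zero constantCoeff_u4Z)

theorem h9Z_ne_zero : h9Z ≠ 0 :=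
  mul_ne_zero PowerSeries.X_ne_zero (ne_zero_of_constantCoeff one_ne_zero constantCoeff_u9Z)

/-- `h₂ = h₄ (1 + 16 h₄)` -/
theorem h2Z_eq : h2Z = h4Z * (1 + 16 * h4Z) := by
  have h := eta4
  have hi : ee * etaProdInv = 1 := etaProd_mul_inv
  rw [h2Z, u2Z, h4Z, u4Z, mul_pow, h]
  set i := etaProdInv
  set e1 := ee
  set e4 := dilZ 4 ee
  have h8 : e1 ^ 8 * i ^ 8 = 1 := by rw [← mul_pow, hi, one_pow]
  linear_combination (XX * e4 ^ 8 * i ^ 8 * (e1 ^ 8 * i ^ 8 + 1) +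
    16 * XX ^ 2 * e4 ^ 16 * i ^ 16) * h8

/-- `h₂(q) h₂(q²) = h₄³` -/
theorem h2Z_mul_dilZ : h2Z * dilZ 2 h2Z = h4Z ^ 3 := by
  have hi : ee * etaProdInv = 1 := etaProd_mul_inv
  have hi2 : dilZ 2 ee * dilZ 2 etaProdInv = 1 := by rw [← dilZ_mul, hi, dilZ_one]
  rw [h2Z, u2Z, h4Z, u4Z]
  simp only [dilZ_mul, dilZ_pow, dilZ_dilZ, dilZ_X]
  norm_num
  set i := etaProdInv
  set i2 := dilZ 2 etaProdInv
  set e2 := dilZ 2 ee
  set e4 := dilZ 4 ee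
  have h24 : e2 ^ 24 * i2 ^ 24 = 1 := by rw [← mul_pow, hi2, one_pow]
  linear_combination (XX ^ 3 * i ^ 24 * e4 ^ 24) * h24

/-- `h₂(q²) (1 + 16 h₄) = h₄²` -/
theorem dilZ_two_h2Z_mul : dilZ 2 h2Z * (1 + 16 * h4Z) = h4Z ^ 2 := by
  apply mul_left_cancel₀ h4Z_ne_zero
  have h := h2Z_mul_dilZ
  have h' := h2Z_eq
  linear_combination h - dilZ 2 h2Z * h'

/-- `h₃ = h₉ (1 + 9 h₉ + 27 h₉²)` -/
theorem h3Z_eq : h3Z = h9Z * (1 + 9 * h9Z + 27 * h9Z ^ 2) := by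
  have h := eta9
  have hi : ee * etaProdInv = 1 := etaProd_mul_inv
  rw [h3Z, u3Z, h9Z, u9Z, mul_pow, h]
  set i := etaProdInv
  set e1 := ee
  set e9 := dilZ 9 ee
  have h3 : e1 ^ 3 * i ^ 3 = 1 := by rw [← mul_pow, hi, one_pow]
  linear_combination (XX * e9 ^ 3 * i ^ 3 * ((e1 ^ 3 * i ^ 3) ^ 2 + e1 ^ 3 * i ^ 3 + 1) +
    9 * XX ^ 2 * e9 ^ 6 * i ^ 6 * (e1 ^ 3 * i ^ 3 + 1) + 27 * XX ^ 3 * e9 ^ 9 * i ^ 9) * h3

/-- `h₃(q) h₃(q³) = h₉⁴` -/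
theorem h3Z_mul_dilZ : h3Z * dilZ 3 h3Z = h9Z ^ 4 := by
  have hi : ee * etaProdInv = 1 := etaProd_mul_inv
  have hi3 : dilZ 3 ee * dilZ 3 etaProdInv = 1 := by rw [← dilZ_mul, hi, dilZ_one]
  rw [h3Z, u3Z, h9Z, u9Z]
  simp only [dilZ_mul, dilZ_pow, dilZ_dilZ, dilZ_X]
  norm_num
  set i := etaProdInv
  set i3 := dilZ 3 etaProdInv
  set e3 := dilZ 3 ee
  set e9 := dilZ 9 ee
  have h12 : e3 ^ 12 * i3 ^ 12 = 1 := by rw [← mul_pow, hi3, one_pow]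
  linear_combination (XX ^ 4 * i ^ 12 * e9 ^ 12) * h12

/-- `h₃(q³) (1 + 9 h₉ + 27 h₉²) = h₉³` -/
theorem dilZ_three_h3Z_mul : dilZ 3 h3Z * (1 + 9 * h9Z + 27 * h9Z ^ 2) = h9Z ^ 3 := by
  apply mul_left_cancel₀ h9Z_ne_zero
  have h := h3Z_mul_dilZ
  have h' := h3Z_eq
  linear_combination h - dilZ 3 h3Z * h'

end Fermat.Agent.Lib.Hauptmodul
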