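/-
Hauptmodul identities of level `4` and `9` over an ARBITRARY commutative ring `K` (owner helper208).
With `j = jqModC K`, `j_d = jqNModC K d`, `h = toL K h4Z`:

* `j  h (1 + 16 h)       = (1 + 256 h + 4096 h²)³`,
* `j₂ h² (1 + 16 h)²     = (1 + 16 h + 256 h²)³`,
* `j₄ h⁴ (1 + 16 h)      = (1 + 16 h + 16 h²)³`,

and with `h = toL K h9Z`, `s = 1 + 9 h + 27 h²`:

* `j  h s    = (1 + 9 h)³ (1 + 243 h + 2187 h² + 6561 h³)³`,
* `j₃ h³ s³  = (1 + 9 h)³ (1 + 3 h + 27 h² + 81 h³)³`,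
* `j₉ h⁹ s   = (1 + 3 h)³ (1 + 9 h + 27 h² + 3 h³)³`.

For a field `K` of any characteristic: `K(j, j₂, j₄) = K(h₄)`, `K(j, j₃, j₉) = K(h₉)`.
-/
import Fermat.Agent.Lib.Hauptmodul49.IdentZ
import Fermat.Agent.Lib.Hauptmodul.AnyRing
import Fermat.Prelude.Def_ModularCurve_X0ModL

set_option autoImplicit false

noncomputable section

namespace Fermat.Agent.Lib.Hauptmodul

open ModularCurve PowerSeries

/-! ### identities in `ℤ⟦q⟧` -/

theorem dilZ_ofNat (d n : ℕ) [n.AtLeastTwo] :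
    dilZ d (OfNat.ofNat n : PowerSeries ℤ) = OfNat.ofNat n := by
  rw [← map_ofNat (PowerSeries.C : ℤ →+* PowerSeries ℤ), dilZ_C]

theorem jNum_mul_h4Z :
    jNum * (h4Z * (1 + 16 * h4Z)) = X * (1 + 256 * h4Z + 4096 * h4Z ^ 2) ^ 3 := by
  have h := jNum_mul_h2Z
  rw [h2Z_eq] at h
  linear_combination h

theorem dilZ_two_jNum_mul_h4Z :
    dilZ 2 jNum * (h4Z * (1 + 16 * h4Z)) ^ 2 = X ^ 2 * (1 + 16 * h4Z + 256 * h4Z ^ 2) ^ 3 := by
  have h := dilZ_jNum_mul_h2Z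
  rw [h2Z_eq] at h
  linear_combination h

theorem dilZ_four_jNum_mul_h4Z :
    dilZ 4 jNum * (h4Z ^ 4 * (1 + 16 * h4Z)) = X ^ 4 * (1 + 16 * h4Z + 16 * h4Z ^ 2) ^ 3 := by
  have h := congrArg (dilZ 2) dilZ_jNum_mul_h2Z
  simp only [dilZ_mul, dilZ_pow, dilZ_add, dilZ_dilZ, dilZ_X, dilZ_one] at h
  rw [dilZ_ofNat 2 16] at h
  norm_num at h
  have hb := dilZ_two_h2Z_mul
  set b := dilZ 2 h2Z
  set r := h4Z
  have e1 : r ^ 4 = (b * (1 + 16 * r)) ^ 2 := by rw [hb]; ring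
  have e2 : 1 + 16 * r + 16 * r ^ 2 = (1 + 16 * r) + 16 * (b * (1 + 16 * r)) := by rw [hb]
  rw [e1, e2]
  linear_combination (1 + 16 * r) ^ 3 * h

theorem jNum_mul_h9Z :
    jNum * (h9Z * (1 + 9 * h9Z + 27 * h9Z ^ 2))
      = X * ((1 + 9 * h9Z) ^ 3 * (1 + 243 * h9Z + 2187 * h9Z ^ 2 + 6561 * h9Z ^ 3) ^ 3) := by
  have h := jNum_mul_h3Z
  rw [h3Z_eq] at h
  linear_combination h

theorem dilZ_three_jNum_mul_h9Z :
    dilZ 3 jNum * (h9Z * (1 + 9 * h9Z + 27 * h9Z ^ 2)) ^ 3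
      = X ^ 3 * ((1 + 9 * h9Z) ^ 3 * (1 + 3 * h9Z + 27 * h9Z ^ 2 + 81 * h9Z ^ 3) ^ 3) := by
  have h := dilZ_jNum_mul_h3Z
  rw [h3Z_eq] at h
  linear_combination h

theorem dilZ_nine_jNum_mul_h9Z :
    dilZ 9 jNum * (h9Z ^ 9 * (1 + 9 * h9Z + 27 * h9Z ^ 2))
      = X ^ 9 * ((1 + 3 * h9Z) ^ 3 * (1 + 9 * h9Z + 27 * h9Z ^ 2 + 3 * h9Z ^ 3) ^ 3) := by
  have h := congrArg (dilZ 3) dilZ_jNum_mul_h3Z
  simp only [dilZ_mul, dilZ_pow, dilZ_add, dilZ_dilZ, dilZ_X, dilZ_one] at h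
  rw [dilZ_ofNat 3 27, dilZ_ofNat 3 3] at h
  norm_num at h
  have hb := dilZ_three_h3Z_mul
  set b := dilZ 3 h3Z
  set r := h9Z
  set s := 1 + 9 * r + 27 * r ^ 2 with hs
  have e1 : r ^ 9 = (b * s) ^ 3 := by rw [hb]; ring
  have e2 : (1 + 3 * r) ^ 3 = s + 27 * (b * s) := by rw [hb, hs]; ring
  have e3 : s + 3 * r ^ 3 = s + 3 * (b * s) := by rw [hb]
  rw [e1, e2, e3]
  linear_combination s ^ 4 * h

/-! ### identities in `K((q))`, `K` any commutative ring -/

section Ring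

variable (K : Type*) [CommRing K]

theorem toL_h2Z_eq_h4 : toL K h2Z = toL K h4Z * (1 + 16 * toL K h4Z) := by
  have h := congrArg (toL K) h2Z_eq
  simpa only [map_mul, map_add, map_one, map_ofNat] using h

theorem qExpand_toL_h2Z_mul_h4 :
    qExpand K 2 (toL K h2Z) * (1 + 16 * toL K h4Z) = toL K h4Z ^ 2 := by
  have h := congrArg (toL K) dilZ_two_h2Z_mul
  simpa only [map_mul, map_add, map_one, map_ofNat, map_pow, toL_dilZ] using h

theorem toL_h3Z_eq_h9 :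
    toL K h3Z = toL K h9Z * (1 + 9 * toL K h9Z + 27 * toL K h9Z ^ 2) := by
  have h := congrArg (toL K) h3Z_eq
  simpa only [map_mul, map_add, map_one, map_ofNat, map_pow] using h

theorem qExpand_toL_h3Z_mul_h9 :
    qExpand K 3 (toL K h3Z) * (1 + 9 * toL K h9Z + 27 * toL K h9Z ^ 2) = toL K h9Z ^ 3 := by
  have h := congrArg (toL K) dilZ_three_h3Z_mul
  simpa only [map_mul, map_add, map_one, map_ofNat, map_pow, toL_dilZ] using h

theorem jqModC_mul_h4 :
    jqModC K * (toL K h4Z * (1 + 16 * toL K h4Z))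
      = (1 + 256 * toL K h4Z + 4096 * toL K h4Z ^ 2) ^ 3 := by
  have h := jqModC_mul_h2 K
  rw [toL_h2Z_eq_h4] at h
  linear_combination h

theorem jqModC_sub_mul_h4 :
    (jqModC K - 1728) * (toL K h4Z * (1 + 16 * toL K h4Z))
      = (1 + 32 * toL K h4Z) ^ 2 * (1 - 512 * toL K h4Z - 8192 * toL K h4Z ^ 2) ^ 2 := by
  linear_combination jqModC_mul_h4 K

theorem jqNModC_two_mul_h4 :
    jqNModC K 2 * (toL K h4Z * (1 + 16 * toL K h4Z)) ^ 2
      = (1 + 16 * toL K h4Z + 256 * toL K h4Z ^ 2) ^ 3 := by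
  have h := jqNModC_two_mul_h2 K
  rw [toL_h2Z_eq_h4] at h
  linear_combination h

theorem jqNModC_four_mul_h4 :
    jqNModC K 4 * (toL K h4Z ^ 4 * (1 + 16 * toL K h4Z))
      = (1 + 16 * toL K h4Z + 16 * toL K h4Z ^ 2) ^ 3 := by
  have h := congrArg (toL K) dilZ_four_jNum_mul_h4Z
  have hq := single_neg_mul_toL_X_pow K 4
  simp only [map_mul, map_pow, map_add, map_one, map_ofNat] at h
  rw [jqNModC_eq]
  linear_combination (HahnSeries.single (-((4 : ℕ) : ℤ)) (1 : K)) * h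
    + (1 + 16 * toL K h4Z + 16 * toL K h4Z ^ 2) ^ 3 * hq

theorem jqModC_mul_h9 :
    jqModC K * (toL K h9Z * (1 + 9 * toL K h9Z + 27 * toL K h9Z ^ 2))
      = (1 + 9 * toL K h9Z) ^ 3 *
        (1 + 243 * toL K h9Z + 2187 * toL K h9Z ^ 2 + 6561 * toL K h9Z ^ 3) ^ 3 := by
  have h := jqModC_mul_h3 K
  rw [toL_h3Z_eq_h9] at h
  linear_combination h

theorem jqNModC_three_mul_h9 :
    jqNModC K 3 * (toL K h9Z * (1 + 9 * toL K h9Z + 27 * toL K h9Z ^ 2)) ^ 3
      = (1 + 9 * toL K h9Z) ^ 3 *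
        (1 + 3 * toL K h9Z + 27 * toL K h9Z ^ 2 + 81 * toL K h9Z ^ 3) ^ 3 := by
  have h := jqNModC_three_mul_h3 K
  rw [toL_h3Z_eq_h9] at h
  linear_combination h

theorem jqNModC_nine_mul_h9 :
    jqNModC K 9 * (toL K h9Z ^ 9 * (1 + 9 * toL K h9Z + 27 * toL K h9Z ^ 2))
      = (1 + 3 * toL K h9Z) ^ 3 *
        (1 + 9 * toL K h9Z + 27 * toL K h9Z ^ 2 + 3 * toL K h9Z ^ 3) ^ 3 := by
  have h := congrArg (toL K) dilZ_nine_jNum_mul_h9Z
  have hq := single_neg_mul_toL_X_pow K 9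
  simp only [map_mul, map_pow, map_add, map_one, map_ofNat] at h
  rw [jqNModC_eq]
  linear_combination (HahnSeries.single (-((9 : ℕ) : ℤ)) (1 : K)) * h
    + ((1 + 3 * toL K h9Z) ^ 3 *
        (1 + 9 * toL K h9Z + 27 * toL K h9Z ^ 2 + 3 * toL K h9Z ^ 3) ^ 3) * hq

theorem isUnit_toL_h4Z : IsUnit (toL K h4Z) := by
  rw [h4Z, map_mul]
  exact (isUnit_toL_X K).mul (isUnit_toL K constantCoeff_u4Z)

theorem isUnit_toL_h9Z : IsUnit (toL K h9Z) := by
  rw [h9Z, map_mul]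
  exact (isUnit_toL_X K).mul (isUnit_toL K constantCoeff_u9Z)

theorem constantCoeff_h4Z : constantCoeff h4Z = 0 := by
  rw [h4Z, map_mul, constantCoeff_X, zero_mul]

theorem constantCoeff_h9Z : constantCoeff h9Z = 0 := by
  rw [h9Z, map_mul, constantCoeff_X, zero_mul]

/-- `1 + 16 h₄` is a unit of `K((q))` (the cusp `1/2`) -/
theorem isUnit_one_add_h4 : IsUnit (1 + 16 * toL K h4Z) := by
  have h := isUnit_toL K (P := 1 + 16 * h4Z) (by simp [constantCoeff_h4Z])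
  simpa only [map_mul, map_add, map_one, map_ofNat] using h

/-- `1 + 9 h₉ + 27 h₉²` is a unit of `K((q))` (the cusps `±1/3`) -/
theorem isUnit_one_add_h9 : IsUnit (1 + 9 * toL K h9Z + 27 * toL K h9Z ^ 2) := by
  have h := isUnit_toL K (P := 1 + 9 * h9Z + 27 * h9Z ^ 2) (by simp [constantCoeff_h9Z])
  simpa only [map_mul, map_add, map_one, map_ofNat, map_pow] using h

theorem coeff_toL_h4Z_one : (toL K h4Z).coeff 1 = 1 :=
  coeff_toL_X_mul_one K u4Z constantCoeff_u4Z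

theorem coeff_toL_h9Z_one : (toL K h9Z).coeff 1 = 1 :=
  coeff_toL_X_mul_one K u9Z constantCoeff_u9Z

theorem coeff_toL_h4Z_of_lt {k : ℤ} (hk : k < 1) : (toL K h4Z).coeff k = 0 :=
  coeff_toL_X_mul_of_lt K u4Z hk

theorem coeff_toL_h9Z_of_lt {k : ℤ} (hk : k < 1) : (toL K h9Z).coeff k = 0 :=
  coeff_toL_X_mul_of_lt K u9Z hk

/-- `h₄ (1 + 256 h₂(q²)) = h₂(q) - 16 h₂(q²)` -/
theorem h4_mul_eq :
    toL K h4Z * (1 + 256 * qExpand K 2 (toL K h2Z))
      = toL K h2Z - 16 * qExpand K 2 (toL K h2Z) := by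
  have h1 := toL_h2Z_eq_h4 K
  have h2 := qExpand_toL_h2Z_mul_h4 K
  obtain ⟨u, hu⟩ := isUnit_one_add_h4 K
  apply (Units.mul_right_inj u).1
  rw [hu]
  linear_combination (256 * toL K h4Z + 16) * h2 - (1 + 16 * toL K h4Z) * h1

/-- `h₉` as a rational function of `a = h₃(q)`, `b = h₃(q³)`:
`h₉ (1 + 9 a - 243 b + 729 a b) = a + 54 b + 486 a b + 19683 a b²` -/
theorem h9_mul_eq :
    toL K h9Z * (1 + 9 * toL K h3Z - 243 * qExpand K 3 (toL K h3Z)
        + 729 * (toL K h3Z * qExpand K 3 (toL K h3Z)))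
      = toL K h3Z + 54 * qExpand K 3 (toL K h3Z) + 486 * (toL K h3Z * qExpand K 3 (toL K h3Z))
        + 19683 * (toL K h3Z * qExpand K 3 (toL K h3Z) ^ 2) := by
  have h1 := toL_h3Z_eq_h9 K
  have h2 := qExpand_toL_h3Z_mul_h9 K
  obtain ⟨u, hu⟩ := isUnit_one_add_h9 K
  apply (Units.mul_right_inj u).1
  rw [hu]
  set a := toL K h3Z
  set b := qExpand K 3 (toL K h3Z)
  set r := toL K h9Z
  have hab : a * b = r ^ 4 := by linear_combination b * h1 + r * h2
  linear_combination (-243 * r + 729 * r * a - 54 - 486 * a - 19683 * a * b) * h2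
    + (-19683 * r ^ 3) * hab
    + (9 * (1 + 9 * r + 27 * r ^ 2) * r - (1 + 9 * r + 27 * r ^ 2) + 729 * r ^ 4 - 486 * r ^ 3) * h1

theorem isUnit_den4 : IsUnit (1 + 256 * qExpand K 2 (toL K h2Z)) := by
  have h := isUnit_toL K (P := 1 + 256 * dilZ 2 h2Z) (by
    rw [map_add, map_mul, constantCoeff_dilZ, h2Z, map_mul, constantCoeff_X]
    simp)
  simpa only [map_mul, map_add, map_one, map_ofNat, toL_dilZ] using h

theorem isUnit_den9 : IsUnit (1 + 9 * toL K h3Z - 243 * qExpand K 3 (toL K h3Z)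
        + 729 * (toL K h3Z * qExpand K 3 (toL K h3Z))) := by
  have h := isUnit_toL K (P := 1 + 9 * h3Z - 243 * dilZ 3 h3Z + 729 * (h3Z * dilZ 3 h3Z)) (by
    simp only [map_add, map_sub, map_mul, constantCoeff_dilZ, h3Z, constantCoeff_X]
    simp)
  simpa only [map_mul, map_add, map_sub, map_one, map_ofNat, toL_dilZ] using h

end Ring

/-! ### fields of arbitrary characteristic -/

section Field

variable (K : Type*) [Field K]

theorem transcendental_toL_h4Z : Transcendental K (toL K h4Z) :=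
  transcendental_of_coeff _ (fun _ hk => coeff_toL_h4Z_of_lt K hk) (coeff_toL_h4Z_one K)

theorem transcendental_toL_h9Z : Transcendental K (toL K h9Z) :=
  transcendental_of_coeff _ (fun _ hk => coeff_toL_h9Z_of_lt K hk) (coeff_toL_h9Z_one K)

theorem toL_h4Z_ne_zero : toL K h4Z ≠ 0 := (isUnit_toL_h4Z K).ne_zero

theorem toL_h9Z_ne_zero : toL K h9Z ≠ 0 := (isUnit_toL_h9Z K).ne_zero

/-- `h₄ ∈ K(j, j₂, j₄)`, in every characteristic -/
theorem toL_h4Z_mem : toL K h4Z ∈ modularFunctionFieldFullC K 4 := by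
  have h0 : toL K h2Z ∈ modularFunctionFieldFullC K 2 :=
    modularFunctionFieldC_le_full K 2 (toL_h2Z_mem K)
  have ha : toL K h2Z ∈ modularFunctionFieldFullC K 4 :=
    full_degeneracyC_le K (by norm_num : 2 ∣ 4) h0
  have hb : qExpand K 2 (toL K h2Z) ∈ modularFunctionFieldFullC K 4 :=
    full_degeneracyC_map_le K 2 2 ⟨_, h0, rfl⟩
  have hn := fun (n : ℕ) [n.AtLeastTwo] =>
    ofNat_mem_intermediateField K (modularFunctionFieldFullC K 4) n
  rw [eq_div_of_mul_eq (isUnit_den4 K).ne_zero (h4_mul_eq K)]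
  exact div_mem (sub_mem ha (mul_mem (hn _) hb)) (add_mem (one_mem _) (mul_mem (hn _) hb))

/-- `h₉ ∈ K(j, j₃, j₉)`, in every characteristic -/
theorem toL_h9Z_mem : toL K h9Z ∈ modularFunctionFieldFullC K 9 := by
  have h0 : toL K h3Z ∈ modularFunctionFieldFullC K 3 :=
    modularFunctionFieldC_le_full K 3 (toL_h3Z_mem K)
  have ha : toL K h3Z ∈ modularFunctionFieldFullC K 9 :=
    full_degeneracyC_le K (by norm_num : 3 ∣ 9) h0
  have hb : qExpand K 3 (toL K h3Z) ∈ modularFunctionFieldFullC K 9 :=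
    full_degeneracyC_map_le K 3 3 ⟨_, h0, rfl⟩
  have hn := fun (n : ℕ) [n.AtLeastTwo] =>
    ofNat_mem_intermediateField K (modularFunctionFieldFullC K 9) n
  rw [eq_div_of_mul_eq (isUnit_den9 K).ne_zero (h9_mul_eq K)]
  exact div_mem
    (add_mem (add_mem (add_mem ha (mul_mem (hn _) hb)) (mul_mem (hn _) (mul_mem ha hb)))
      (mul_mem (hn _) (mul_mem ha (pow_mem hb _))))
    (add_mem (sub_mem (add_mem (one_mem _) (mul_mem (hn _) ha)) (mul_mem (hn _) hb))
      (mul_mem (hn _) (mul_mem ha hb)))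

theorem one_add_h4_ne_zero : 1 + 16 * toL K h4Z ≠ 0 := (isUnit_one_add_h4 K).ne_zero

theorem one_add_h9_ne_zero : 1 + 9 * toL K h9Z + 27 * toL K h9Z ^ 2 ≠ 0 :=
  (isUnit_one_add_h9 K).ne_zero

/-- `K(j, j₂, j₄) = K(h₄)`, in every characteristic. -/
theorem modularFunctionFieldFullC_four :
    modularFunctionFieldFullC K 4 = IntermediateField.adjoin K {toL K h4Z} := by
  apply le_antisymm
  · have hh : toL K h4Z ∈ IntermediateField.adjoin K {toL K h4Z} :=
      IntermediateField.mem_adjoin_simple_self K _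
    have hn := fun (n : ℕ) [n.AtLeastTwo] =>
      ofNat_mem_intermediateField K (IntermediateField.adjoin K {toL K h4Z}) n
    have h1 : 1 + 16 * toL K h4Z ∈ IntermediateField.adjoin K {toL K h4Z} :=
      add_mem (one_mem _) (mul_mem (hn _) hh)
    have n0 := toL_h4Z_ne_zero K
    have n1 := one_add_h4_ne_zero K
    rw [modularFunctionFieldFullC, IntermediateField.adjoin_le_iff]
    rintro x ⟨d, hne, hd, rfl⟩
    have hd4 : d ∈ Nat.divisors 4 := Nat.mem_divisors.2 ⟨hd, by norm_num⟩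
    have hd' : d = 1 ∨ d = 2 ∨ d = 4 := by
      have : Nat.divisors 4 = {1, 2, 4} := by decide
      rw [this] at hd4
      simpa using hd4
    rcases hd' with rfl | rfl | rfl
    · rw [SetLike.mem_coe, qExpand_one_apply,
        eq_div_of_mul_eq (mul_ne_zero n0 n1) (jqModC_mul_h4 K)]
      exact div_mem (pow_mem (add_mem (add_mem (one_mem _) (mul_mem (hn _) hh))
        (mul_mem (hn _) (pow_mem hh _))) _) (mul_mem hh h1)
    · have e : qExpand K 2 (jqModC K) = jqNModC K 2 := rfl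
      rw [SetLike.mem_coe, e,
        eq_div_of_mul_eq (pow_ne_zero 2 (mul_ne_zero n0 n1)) (jqNModC_two_mul_h4 K)]
      exact div_mem (pow_mem (add_mem (add_mem (one_mem _) (mul_mem (hn _) hh))
        (mul_mem (hn _) (pow_mem hh _))) _) (pow_mem (mul_mem hh h1) _)
    · have e : qExpand K 4 (jqModC K) = jqNModC K 4 := rfl
      rw [SetLike.mem_coe, e,
        eq_div_of_mul_eq (mul_ne_zero (pow_ne_zero 4 n0) n1) (jqNModC_four_mul_h4 K)]
      exact div_mem (pow_mem (add_mem (add_mem (one_mem _) (mul_mem (hn _) hh))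
        (mul_mem (hn _) (pow_mem hh _))) _) (mul_mem (pow_mem hh _) h1)
  · rw [IntermediateField.adjoin_simple_le_iff]
    exact toL_h4Z_mem K

/-- `K(j, j₃, j₉) = K(h₉)`, in every characteristic. -/
theorem modularFunctionFieldFullC_nine :
    modularFunctionFieldFullC K 9 = IntermediateField.adjoin K {toL K h9Z} := by
  apply le_antisymm
  · have hh : toL K h9Z ∈ IntermediateField.adjoin K {toL K h9Z} :=
      IntermediateField.mem_adjoin_simple_self K _
    have hn := fun (n : ℕ) [n.AtLeastTwo] =>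
      ofNat_mem_intermediateField K (IntermediateField.adjoin K {toL K h9Z}) n
    have h1 : 1 + 9 * toL K h9Z + 27 * toL K h9Z ^ 2 ∈ IntermediateField.adjoin K {toL K h9Z} :=
      add_mem (add_mem (one_mem _) (mul_mem (hn _) hh)) (mul_mem (hn _) (pow_mem hh _))
    have n0 := toL_h9Z_ne_zero K
    have n1 := one_add_h9_ne_zero K
    rw [modularFunctionFieldFullC, IntermediateField.adjoin_le_iff]
    rintro x ⟨d, hne, hd, rfl⟩
    have hd9 : d ∈ Nat.divisors 9 := Nat.mem_divisors.2 ⟨hd, by norm_num⟩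
    have hd' : d = 1 ∨ d = 3 ∨ d = 9 := by
      have : Nat.divisors 9 = {1, 3, 9} := by decide
      rw [this] at hd9
      simpa using hd9
    rcases hd' with rfl | rfl | rfl
    · rw [SetLike.mem_coe, qExpand_one_apply,
        eq_div_of_mul_eq (mul_ne_zero n0 n1) (jqModC_mul_h9 K)]
      exact div_mem (mul_mem (pow_mem (add_mem (one_mem _) (mul_mem (hn _) hh)) _)
        (pow_mem (add_mem (add_mem (add_mem (one_mem _) (mul_mem (hn _) hh))
          (mul_mem (hn _) (pow_mem hh _))) (mul_mem (hn _) (pow_mem hh _))) _)) (mul_mem hh h1)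
    · have e : qExpand K 3 (jqModC K) = jqNModC K 3 := rfl
      rw [SetLike.mem_coe, e,
        eq_div_of_mul_eq (pow_ne_zero 3 (mul_ne_zero n0 n1)) (jqNModC_three_mul_h9 K)]
      exact div_mem (mul_mem (pow_mem (add_mem (one_mem _) (mul_mem (hn _) hh)) _)
        (pow_mem (add_mem (add_mem (add_mem (one_mem _) (mul_mem (hn _) hh))
          (mul_mem (hn _) (pow_mem hh _))) (mul_mem (hn _) (pow_mem hh _))) _))
        (pow_mem (mul_mem hh h1) _)
    · have e : qExpand K 9 (jqModC K) = jqNModC K 9 := rfl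
      rw [SetLike.mem_coe, e,
        eq_div_of_mul_eq (mul_ne_zero (pow_ne_zero 9 n0) n1) (jqNModC_nine_mul_h9 K)]
      exact div_mem (mul_mem (pow_mem (add_mem (one_mem _) (mul_mem (hn _) hh)) _)
        (pow_mem (add_mem (add_mem (add_mem (one_mem _) (mul_mem (hn _) hh))
          (mul_mem (hn _) (pow_mem hh _))) (mul_mem (hn _) (pow_mem hh _))) _))
        (mul_mem (pow_mem hh _) h1)
  · rw [IntermediateField.adjoin_simple_le_iff]
    exact toL_h9Z_mem K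

end Field

/-- `h₄ ∈ ℚ(j(q), j(q²), j(q⁴))` -/
theorem h4q_mem : h4q ∈ modularFunctionFieldFull 4 := toL_h4Z_mem ℚ

/-- `h₉ ∈ ℚ(j(q), j(q³), j(q⁹))` -/
theorem h9q_mem : h9q ∈ modularFunctionFieldFull 9 := toL_h9Z_mem ℚ

end Fermat.Agent.Lib.Hauptmodul

end
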