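/-
Abstract: ramification over the `h₄`-line from ramification over the `h₂`-line and
`h₂ = h₄ (1 + 16 h₄)`  (`a = h₂`, `r = h₄`).  There are NO elliptic points any more.
TASK HM49-R4.
-/
import Fermat.Agent.Lib.Hauptmodul.Ram2

set_option autoImplicit false

namespace Fermat.Agent.Lib.Hauptmodul

open AlgebraicCurve Fermat.Agent.S24.FF

variable {K F : Type*} [Field K] [Field F] [Algebra K F] [CharZero K] {a r : F}

/-- `a + x y` is a unit at `v` when `a` is a unit, `x` vanishes and `y` is regular at `v`. -/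
theorem Ram49.aux_unit (v : Place K F) {a x y : F} (ha0 : a ≠ 0) (ha : v.ord a = 0)
    (hx : 0 < v.ord x) (hy : y ∈ v.toValuationSubring) :
    v.ord (a + x * y) = 0 ∧ a + x * y ≠ 0 := by
  rcases eq_or_ne y 0 with rfl | hy0
  · rw [mul_zero, add_zero]
    exact ⟨ha, ha0⟩
  · have hx0 : x ≠ 0 := ne_zero_of_ord_ne_zero v hx.ne'
    refine Ram2.aux_unit_add v ha0 ha ?_
    rw [v.ord_mul hx0 hy0]
    have := (mem_iff_ord_nonneg v).mp hy
    omega

theorem Ram49.aux_ord_16_mul (v : Place K F) (x : F) : v.ord (16 * x) = v.ord x := by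
  have := Ram2.aux_ord_nat_mul v (n := 16) (by norm_num) x
  simpa using this

/-- unramified outside `h₄ = 0, -1/16, ∞` -/
theorem ram4_generic
    (hgen : ∀ c : K, c ≠ 0 → 64 * c + 1 ≠ 0 → ∀ v : Place K F,
      0 < v.ord (a - algebraMap K F c) → v.ord (a - algebraMap K F c) = 1)
    (hell : ∀ v : Place K F, 0 < v.ord (1 + 64 * a) → v.ord (1 + 64 * a) ∣ 2)
    (H : a = r * (1 + 16 * r)) (c : K) (h0 : c ≠ 0) (h1 : 16 * c + 1 ≠ 0) (v : Place K F)
    (hv : 0 < v.ord (r - algebraMap K F c)) : v.ord (r - algebraMap K F c) = 1 := by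
  have := Ram2.aux_charZero K F
  set C : F := algebraMap K F c with hC
  set d : F := r - C with hd
  have hd0 : d ≠ 0 := ne_zero_of_ord_ne_zero v hv.ne'
  have hr : r = C + d := by rw [hd]; ring
  by_cases c1 : 1 + 32 * c = 0
  · have hC1 : 1 + 32 * C = 0 := by
      have := congrArg (algebraMap K F) c1
      simpa only [map_add, map_mul, map_one, map_ofNat, map_zero] using this
    have e1 : 1 + 64 * a = (((32 : ℕ) : F) * d) ^ 2 := by
      rw [H, hr]
      push_cast
      linear_combination (1 + 32 * C + 64 * d) * hC1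
    have e2 := congrArg v.ord e1
    rw [ord_pow, Ram2.aux_ord_nat_mul v (by norm_num)] at e2
    push_cast at e2
    have e3 := hell v (by rw [e2]; omega)
    rw [e2] at e3
    exact Ram2.aux_pos_dvd_one hv (by norm_num) e3
  · have hU : (1 + 32 * C : F) = algebraMap K F (1 + 32 * c) := by
      simp only [map_add, map_mul, map_one, map_ofNat, hC]
    have hU0 : (1 + 32 * C : F) ≠ 0 := by
      rw [hU]
      exact (map_ne_zero (algebraMap K F)).mpr c1
    have hUord : v.ord (1 + 32 * C : F) = 0 := by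
      rw [hU]
      exact ord_algebraMap v _
    have h16 : (16 : F) ∈ v.toValuationSubring := by simp
    obtain ⟨hy, hy0⟩ := Ram49.aux_unit v hU0 hUord hv h16
    have e1 : a - algebraMap K F (c * (1 + 16 * c)) = d * (1 + 32 * C + d * 16) := by
      simp only [map_add, map_mul, map_one, map_ofNat]
      rw [← hC, H, hr]
      ring
    have e2 := congrArg v.ord e1
    rw [v.ord_mul hd0 hy0, hy, add_zero] at e2
    have h1' : 1 + 16 * c ≠ 0 := by
      intro h
      apply h1
      linear_combination h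
    have e3 := hgen (c * (1 + 16 * c)) (mul_ne_zero h0 h1') (by
      have : 64 * (c * (1 + 16 * c)) + 1 = (1 + 32 * c) ^ 2 := by ring
      rw [this]
      exact pow_ne_zero 2 c1) v (by rw [e2]; exact hv)
    rw [e2] at e3
    exact e3

theorem ram4_zero (H : a = r * (1 + 16 * r)) (v : Place K F) (hv : 0 < v.ord r) :
    v.ord a = v.ord r := by
  have hr0 : r ≠ 0 := ne_zero_of_ord_ne_zero v hv.ne'
  have h16 : (16 : F) ∈ v.toValuationSubring := by simp
  obtain ⟨hy, hy0⟩ := Ram49.aux_unit v (a := 1) one_ne_zero v.ord_one hv h16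
  rw [mul_comm r 16] at hy hy0
  rw [H, v.ord_mul hr0 hy0, hy, add_zero]

theorem ram4_pole (H : a = r * (1 + 16 * r)) (v : Place K F) (hv : v.ord r < 0) :
    v.ord a = 2 * v.ord r := by
  have := Ram2.aux_charZero K F
  have hr0 : r ≠ 0 := ne_zero_of_ord_ne_zero v hv.ne
  have h16 := Ram49.aux_ord_16_mul v r
  have h0 : (16 : F) * r ≠ 0 := mul_ne_zero (by norm_num) hr0
  have h1 : v.ord (16 * r + 1) = v.ord (16 * r) :=
    ord_add_eq_of_lt v h0 (by rw [h16, v.ord_one]; exact hv)
  rw [add_comm, h16] at h1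
  have h2 : (1 : F) + 16 * r ≠ 0 := ne_zero_of_ord_ne_zero v (by rw [h1]; exact hv.ne)
  rw [H, v.ord_mul hr0 h2, h1]
  ring

theorem ram4_mid (H : a = r * (1 + 16 * r)) (v : Place K F) (hv : 0 < v.ord (1 + 16 * r)) :
    v.ord a = v.ord (1 + 16 * r) := by
  have hy0 : (1 : F) + 16 * r ≠ 0 := ne_zero_of_ord_ne_zero v hv.ne'
  have hm1 : v.ord (-1 : F) = 0 := by rw [ord_neg, v.ord_one]
  obtain ⟨h1, h10⟩ := Ram2.aux_unit_add v (a := -1) (x := 1 + 16 * r) (by norm_num) hm1 hv
  have e : (-1 : F) + (1 + 16 * r) = 16 * r := by ring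
  rw [e] at h1 h10
  rw [Ram49.aux_ord_16_mul] at h1
  have hr0 : r ≠ 0 := right_ne_zero_of_mul h10
  rw [H, v.ord_mul hr0 hy0, h1, zero_add]

/-- zeros and poles of `h₂` are zeros or poles of `h₄` or zeros of `1 + 16 h₄` -/
theorem ram4_of_ne (H : a = r * (1 + 16 * r)) (v : Place K F) (hv : v.ord a ≠ 0) :
    v.ord r ≠ 0 ∨ 0 < v.ord (1 + 16 * r) := by
  have ha0 : a ≠ 0 := ne_zero_of_ord_ne_zero v hv
  have hr0 : r ≠ 0 := by
    rintro rfl
    simp at H
    exact ha0 H
  have hy0 : (1 : F) + 16 * r ≠ 0 := by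
    intro h
    rw [h, mul_zero] at H
    exact ha0 H
  by_contra hcon
  push Not at hcon
  obtain ⟨h1, h2⟩ := hcon
  have h3 := min_ord_le_ord_add v hy0
  rw [v.ord_one, Ram49.aux_ord_16_mul, h1, min_self] at h3
  rw [H, v.ord_mul hr0 hy0, h1, zero_add] at hv
  omega

end Fermat.Agent.Lib.Hauptmodul
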