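/-
Abstract: ramification over the `h₉`-line from ramification over the `h₃`-line and
`h₃ = h₉ (1 + 9 h₉ + 27 h₉²)`  (`a = h₃`, `r = h₉`).  There are NO elliptic points any more.
TASK HM49-R9.  Proofs: helper183.
-/
import Fermat.Agent.Lib.Hauptmodul49.Ram4

set_option autoImplicit false

namespace Fermat.Agent.Lib.Hauptmodul

open AlgebraicCurve Fermat.Agent.S24.FF

variable {K F : Type*} [Field K] [Field F] [Algebra K F] [CharZero K] {a r : F}

omit [CharZero K] in
private theorem Ram9.natCast_mem (v : Place K F) (n : ℕ) : (n : F) ∈ v.toValuationSubring :=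
  _root_.natCast_mem _ n

private theorem Ram9.w_zero (v : Place K F) (hv : 0 < v.ord r) :
    v.ord (1 + 9 * r + 27 * r ^ 2) = 0 ∧ 1 + 9 * r + 27 * r ^ 2 ≠ 0 := by
  have hr : r ∈ v.toValuationSubring := mem_of_ord_nonneg v hv.le
  have hy : (9 + 27 * r : F) ∈ v.toValuationSubring := by
    have h9 := Ram9.natCast_mem v 9
    have h27 := Ram9.natCast_mem v 27
    push_cast at h9 h27
    exact add_mem h9 (mul_mem h27 hr)
  have := Ram49.aux_unit v (a := 1) (x := r) (y := 9 + 27 * r) one_ne_zero v.ord_one hv hy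
  have e : (1 + 9 * r + 27 * r ^ 2 : F) = 1 + r * (9 + 27 * r) := by ring
  rw [e]
  exact this

private theorem Ram9.w_pole (v : Place K F) (hv : v.ord r < 0) :
    v.ord (1 + 9 * r + 27 * r ^ 2) = 2 * v.ord r ∧ 1 + 9 * r + 27 * r ^ 2 ≠ 0 := by
  have := Ram2.aux_charZero K F
  have hr : r ≠ 0 := ne_zero_of_ord_ne_zero v hv.ne
  have h9 : v.ord (9 * r) = v.ord r := by
    have := Ram2.aux_ord_nat_mul v (n := 9) (by norm_num) r
    simpa using this
  have h27 : v.ord (27 * r ^ 2) = 2 * v.ord r := by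
    have := Ram2.aux_ord_nat_mul v (n := 27) (by norm_num) (r ^ 2)
    rw [ord_pow] at this
    simpa using this
  have h1 : v.ord (9 * r + 1) = v.ord r := by
    rw [ord_add_eq_of_lt v (mul_ne_zero (by norm_num) hr) (by rw [h9, v.ord_one]; exact hv), h9]
  have h2 : v.ord (27 * r ^ 2 + (9 * r + 1)) = 2 * v.ord r := by
    rw [ord_add_eq_of_lt v (mul_ne_zero (by norm_num) (pow_ne_zero 2 hr))
      (by rw [h27, h1]; omega), h27]
  have e : (1 + 9 * r + 27 * r ^ 2 : F) = 27 * r ^ 2 + (9 * r + 1) := by ring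
  rw [e]
  refine ⟨h2, ?_⟩
  intro h0
  rw [h0, v.ord_zero] at h2
  omega

/-- unramified outside `h₉ = 0, ∞` and the roots of `1 + 9 h₉ + 27 h₉²` -/
theorem ram9_generic
    (hgen : ∀ c : K, c ≠ 0 → 27 * c + 1 ≠ 0 → ∀ v : Place K F,
      0 < v.ord (a - algebraMap K F c) → v.ord (a - algebraMap K F c) = 1)
    (hell : ∀ v : Place K F, 0 < v.ord (1 + 27 * a) → v.ord (1 + 27 * a) ∣ 3)
    (H : a = r * (1 + 9 * r + 27 * r ^ 2)) (c : K) (h0 : c ≠ 0) (h1 : 1 + 9 * c + 27 * c ^ 2 ≠ 0)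
    (v : Place K F) (hv : 0 < v.ord (r - algebraMap K F c)) :
    v.ord (r - algebraMap K F c) = 1 := by
  have := Ram2.aux_charZero K F
  set C : F := algebraMap K F c with hC
  set d : F := r - C with hd
  have hd0 : d ≠ 0 := ne_zero_of_ord_ne_zero v hv.ne'
  have hr : r = C + d := by rw [hd]; ring
  by_cases c1 : 1 + 9 * c = 0
  · have hC1 : (1 + 9 * C : F) = 0 := by
      have := congrArg (algebraMap K F) c1
      simpa only [map_add, map_mul, map_one, map_ofNat, map_zero] using this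
    have e1 : 1 + 27 * a = ((729 : ℕ) : F) * d ^ 3 := by
      have e0 : 1 + 27 * a = (1 + 9 * r) ^ 3 := by rw [H]; ring
      have : 1 + 9 * r = 9 * d := by rw [hr]; linear_combination hC1
      rw [e0, this]; push_cast; ring
    have e2 : v.ord (1 + 27 * a) = 3 * v.ord d := by
      rw [e1, Ram2.aux_ord_nat_mul v (by norm_num), ord_pow]
      push_cast; ring
    have e3 := hell v (by rw [e2]; omega)
    rw [e2] at e3
    exact Ram2.aux_pos_dvd_one hv (by norm_num) e3
  · set c' : K := c * (1 + 9 * c + 27 * c ^ 2) with hc'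
    have hc'0 : c' ≠ 0 := mul_ne_zero h0 h1
    have hc'1 : 27 * c' + 1 ≠ 0 := by
      have : 27 * c' + 1 = (1 + 9 * c) ^ 3 := by rw [hc']; ring
      rw [this]
      exact pow_ne_zero 3 c1
    have hC' : algebraMap K F c' = C * (1 + 9 * C + 27 * C ^ 2) := by
      rw [hc']
      simp only [map_add, map_mul, map_one, map_ofNat, map_pow, hC]
    have hu : ((1 + 9 * C) ^ 2 : F) = algebraMap K F ((1 + 9 * c) ^ 2) := by
      simp only [map_add, map_mul, map_one, map_ofNat, map_pow, hC]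
    have hu0 : ((1 + 9 * C) ^ 2 : F) ≠ 0 := by
      rw [hu]
      exact (map_ne_zero (algebraMap K F)).mpr (pow_ne_zero 2 c1)
    have huord : v.ord ((1 + 9 * C) ^ 2 : F) = 0 := by
      rw [hu]; exact ord_algebraMap v _
    have hCm : C ∈ v.toValuationSubring := v.algebraMap_mem' c
    have hdm : d ∈ v.toValuationSubring := mem_of_ord_nonneg v hv.le
    have hy : ((9 + 81 * C) + 27 * d : F) ∈ v.toValuationSubring := by
      have h9 := Ram9.natCast_mem v 9
      have h81 := Ram9.natCast_mem v 81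
      have h27 := Ram9.natCast_mem v 27
      push_cast at h9 h81 h27
      exact add_mem (add_mem h9 (mul_mem h81 hCm)) (mul_mem h27 hdm)
    obtain ⟨o1, n1⟩ := Ram49.aux_unit v hu0 huord hv hy
    have e1 : a - algebraMap K F c' = d * ((1 + 9 * C) ^ 2 + d * ((9 + 81 * C) + 27 * d)) := by
      rw [hC', H, hr]; ring
    have e2 : v.ord (a - algebraMap K F c') = v.ord d := by
      rw [e1, v.ord_mul hd0 n1, o1, add_zero]
    have e3 := hgen c' hc'0 hc'1 v (by rw [e2]; exact hv)
    rw [e2] at e3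
    exact e3

theorem ram9_zero (H : a = r * (1 + 9 * r + 27 * r ^ 2)) (v : Place K F) (hv : 0 < v.ord r) :
    v.ord a = v.ord r := by
  obtain ⟨o, n⟩ := Ram9.w_zero v hv
  rw [H, v.ord_mul (ne_zero_of_ord_ne_zero v hv.ne') n, o, add_zero]

theorem ram9_pole (H : a = r * (1 + 9 * r + 27 * r ^ 2)) (v : Place K F) (hv : v.ord r < 0) :
    v.ord a = 3 * v.ord r := by
  obtain ⟨o, n⟩ := Ram9.w_pole v hv
  rw [H, v.ord_mul (ne_zero_of_ord_ne_zero v hv.ne) n, o]
  ring

theorem ram9_mid (H : a = r * (1 + 9 * r + 27 * r ^ 2)) (v : Place K F)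
    (hv : 0 < v.ord (1 + 9 * r + 27 * r ^ 2)) : v.ord a = v.ord (1 + 9 * r + 27 * r ^ 2) := by
  have hw : (1 + 9 * r + 27 * r ^ 2 : F) ≠ 0 := ne_zero_of_ord_ne_zero v hv.ne'
  have hr0 : r ≠ 0 := by
    rintro rfl
    norm_num at hv
  have hord : v.ord r = 0 := by
    rcases lt_trichotomy (v.ord r) 0 with h | h | h
    · have := (Ram9.w_pole v h).1
      omega
    · exact h
    · have := (Ram9.w_zero v h).1
      omega
  rw [H, v.ord_mul hr0 hw, hord, zero_add]

/-- zeros and poles of `h₃` are zeros or poles of `h₉` or zeros of `1 + 9 h₉ + 27 h₉²` -/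
theorem ram9_of_ne (H : a = r * (1 + 9 * r + 27 * r ^ 2)) (v : Place K F) (hv : v.ord a ≠ 0) :
    v.ord r ≠ 0 ∨ 0 < v.ord (1 + 9 * r + 27 * r ^ 2) := by
  by_contra hcon
  push Not at hcon
  obtain ⟨h1, h2⟩ := hcon
  have ha : a ≠ 0 := ne_zero_of_ord_ne_zero v hv
  have hr0 : r ≠ 0 := by
    rintro rfl
    rw [zero_mul] at H
    exact ha H
  have hw : (1 + 9 * r + 27 * r ^ 2 : F) ≠ 0 := by
    intro h0
    rw [h0, mul_zero] at H
    exact ha H
  have hr : r ∈ v.toValuationSubring := mem_of_ord_nonneg v h1.ge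
  have hwm : (1 + 9 * r + 27 * r ^ 2 : F) ∈ v.toValuationSubring := by
    have h9 := Ram9.natCast_mem v 9
    have h27 := Ram9.natCast_mem v 27
    push_cast at h9 h27
    exact add_mem (add_mem (one_mem _) (mul_mem h9 hr)) (mul_mem h27 (pow_mem hr 2))
  have h3 := ord_nonneg_of_mem v hwm
  apply hv
  rw [H, v.ord_mul hr0 hw, h1]
  omega

end Fermat.Agent.Lib.Hauptmodul
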