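/-
The Hauptmoduln `h₄`, `h₉` as elements of `FN M = ℚ̄(X₀(M))` (`4 ∣ M`, resp. `9 ∣ M`) and the
ramification of `FN M` over the `h₄`-line, `h₉`-line: unramified outside the cusps
(no elliptic points).  Final export of `Lib/Hauptmodul49` (owner helper208).
-/
import Fermat.Agent.Lib.Hauptmodul.Bar
import Fermat.Agent.Lib.Hauptmodul49.AnyRing
import Fermat.Agent.Lib.Hauptmodul49.Ram9

set_option autoImplicit false

noncomputable section

namespace Fermat.Agent.Lib.Hauptmodul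

open AlgebraicCurve ModularCurve Fermat.Agent.S24

/-- `h₄` in the function field of `X₀(M)`, `4 ∣ M` -/
def h4F (M : ℕ) [NeZero M] (hM : 4 ∣ M) : FN M :=
  ⟨coeffEmb Kbar h4q, coeffEmb_mem_laurentBaseChange Kbar (full_degeneracy_le hM h4q_mem)⟩

/-- `h₉` in the function field of `X₀(M)`, `9 ∣ M` -/
def h9F (M : ℕ) [NeZero M] (hM : 9 ∣ M) : FN M :=
  ⟨coeffEmb Kbar h9q, coeffEmb_mem_laurentBaseChange Kbar (full_degeneracy_le hM h9q_mem)⟩

variable (M : ℕ) [NeZero M]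

theorem two_dvd_of_four_dvd {M : ℕ} (hM : 4 ∣ M) : 2 ∣ M := dvd_trans (by norm_num) hM

theorem three_dvd_of_nine_dvd {M : ℕ} (hM : 9 ∣ M) : 3 ∣ M := dvd_trans (by norm_num) hM

/-- the `q`-expansion of `h₄` over `ℚ̄` comes from `ℤ[[q]]` -/
theorem coe_h4F (hM : 4 ∣ M) : ((h4F M hM : FN M) : LaurentSeries Kbar) = toL Kbar h4Z := by
  show coeffMap (algebraMap ℚ Kbar) (toL ℚ h4Z) = toL Kbar h4Z
  exact coeffMap_toL _ _

theorem coe_h9F (hM : 9 ∣ M) : ((h9F M hM : FN M) : LaurentSeries Kbar) = toL Kbar h9Z := by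
  show coeffMap (algebraMap ℚ Kbar) (toL ℚ h9Z) = toL Kbar h9Z
  exact coeffMap_toL _ _

theorem transcendental_h4F (hM : 4 ∣ M) : Transcendental Kbar (h4F M hM) := by
  apply Bar.transcendental_of_coe
  rw [coe_h4F]
  exact transcendental_toL_h4Z Kbar

theorem transcendental_h9F (hM : 9 ∣ M) : Transcendental Kbar (h9F M hM) := by
  apply Bar.transcendental_of_coe
  rw [coe_h9F]
  exact transcendental_toL_h9Z Kbar

theorem Bar.coe_jF' : ((jF M : FN M) : LaurentSeries Kbar) = jqModC Kbar := by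
  rw [Bar.coe_jF, ← jqModC_rat, coeffEmb, coeffMap_jqModC]

theorem Bar.coe_JF' (d : ℕ) [NeZero d] (hd : d ∣ M) :
    ((JF M d hd : FN M) : LaurentSeries Kbar) = jqNModC Kbar d := by
  rw [Bar.coe_JF, ← jqModC_rat, coeffEmb, coeffMap_qExpand, coeffMap_jqModC, jqNModC]

/-- `h₂ = h₄ (1 + 16 h₄)` -/
theorem h2F_eq_h4F (hM : 4 ∣ M) :
    h2F M (two_dvd_of_four_dvd hM) = h4F M hM * (1 + 16 * h4F M hM) := by
  apply Subtype.ext
  push_cast
  rw [coe_h2F, coe_h4F]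
  exact toL_h2Z_eq_h4 Kbar

/-- `h₃ = h₉ (1 + 9 h₉ + 27 h₉²)` -/
theorem h3F_eq_h9F (hM : 9 ∣ M) :
    h3F M (three_dvd_of_nine_dvd hM)
      = h9F M hM * (1 + 9 * h9F M hM + 27 * h9F M hM ^ 2) := by
  apply Subtype.ext
  push_cast
  rw [coe_h3F, coe_h9F]
  exact toL_h3Z_eq_h9 Kbar

theorem jF_mul_h4F (hM : 4 ∣ M) :
    jF M * (h4F M hM * (1 + 16 * h4F M hM))
      = (1 + 256 * h4F M hM + 4096 * h4F M hM ^ 2) ^ 3 := by
  apply Subtype.ext
  push_cast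
  rw [Bar.coe_jF', coe_h4F]
  exact jqModC_mul_h4 Kbar

theorem JF_two_mul_h4F (hM : 4 ∣ M) :
    JF M 2 (two_dvd_of_four_dvd hM) * (h4F M hM * (1 + 16 * h4F M hM)) ^ 2
      = (1 + 16 * h4F M hM + 256 * h4F M hM ^ 2) ^ 3 := by
  apply Subtype.ext
  push_cast
  rw [Bar.coe_JF', coe_h4F]
  exact jqNModC_two_mul_h4 Kbar

theorem JF_four_mul_h4F (hM : 4 ∣ M) :
    JF M 4 hM * (h4F M hM ^ 4 * (1 + 16 * h4F M hM))
      = (1 + 16 * h4F M hM + 16 * h4F M hM ^ 2) ^ 3 := by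
  apply Subtype.ext
  push_cast
  rw [Bar.coe_JF', coe_h4F]
  exact jqNModC_four_mul_h4 Kbar

theorem jF_mul_h9F (hM : 9 ∣ M) :
    jF M * (h9F M hM * (1 + 9 * h9F M hM + 27 * h9F M hM ^ 2))
      = (1 + 9 * h9F M hM) ^ 3 *
        (1 + 243 * h9F M hM + 2187 * h9F M hM ^ 2 + 6561 * h9F M hM ^ 3) ^ 3 := by
  apply Subtype.ext
  push_cast
  rw [Bar.coe_jF', coe_h9F]
  exact jqModC_mul_h9 Kbar

theorem JF_three_mul_h9F (hM : 9 ∣ M) :
    JF M 3 (three_dvd_of_nine_dvd hM) * (h9F M hM * (1 + 9 * h9F M hM + 27 * h9F M hM ^ 2)) ^ 3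
      = (1 + 9 * h9F M hM) ^ 3 *
        (1 + 3 * h9F M hM + 27 * h9F M hM ^ 2 + 81 * h9F M hM ^ 3) ^ 3 := by
  apply Subtype.ext
  push_cast
  rw [Bar.coe_JF', coe_h9F]
  exact jqNModC_three_mul_h9 Kbar

theorem JF_nine_mul_h9F (hM : 9 ∣ M) :
    JF M 9 hM * (h9F M hM ^ 9 * (1 + 9 * h9F M hM + 27 * h9F M hM ^ 2))
      = (1 + 3 * h9F M hM) ^ 3 *
        (1 + 9 * h9F M hM + 27 * h9F M hM ^ 2 + 3 * h9F M hM ^ 3) ^ 3 := by
  apply Subtype.ext
  push_cast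
  rw [Bar.coe_JF', coe_h9F]
  exact jqNModC_nine_mul_h9 Kbar

/-- **`FN M / ℚ̄(h₄)` is unramified outside `h₄ = 0, -1/16, ∞`** (the three cusps of `X₀(4)`) -/
theorem ord_h4F_sub_eq_one (hM : 4 ∣ M) (c : Kbar) (h0 : c ≠ 0) (h1 : 16 * c + 1 ≠ 0)
    (v : Place Kbar (FN M)) (hv : 0 < v.ord (h4F M hM - algebraMap Kbar (FN M) c)) :
    v.ord (h4F M hM - algebraMap Kbar (FN M) c) = 1 :=
  ram4_generic (fun c h0 h1 v hv => ord_h2F_sub_eq_one M (two_dvd_of_four_dvd hM) c h0 h1 v hv)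
    (fun v hv => ord_h2F_elliptic_dvd M (two_dvd_of_four_dvd hM) v hv) (h2F_eq_h4F M hM)
    c h0 h1 v hv

/-- **`FN M / ℚ̄(h₉)` is unramified outside `h₉ = 0, ∞` and the roots of `1 + 9 h + 27 h²`**
(the four cusps of `X₀(9)`) -/
theorem ord_h9F_sub_eq_one (hM : 9 ∣ M) (c : Kbar) (h0 : c ≠ 0) (h1 : 1 + 9 * c + 27 * c ^ 2 ≠ 0)
    (v : Place Kbar (FN M)) (hv : 0 < v.ord (h9F M hM - algebraMap Kbar (FN M) c)) :
    v.ord (h9F M hM - algebraMap Kbar (FN M) c) = 1 :=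
  ram9_generic (fun c h0 h1 v hv => ord_h3F_sub_eq_one M (three_dvd_of_nine_dvd hM) c h0 h1 v hv)
    (fun v hv => ord_h3F_elliptic_dvd M (three_dvd_of_nine_dvd hM) v hv) (h3F_eq_h9F M hM)
    c h0 h1 v hv

/-- at the cusps the index divides `M` -/
theorem ord_h4F_dvd (hM : 4 ∣ M) (v : Place Kbar (FN M)) (hv : v.ord (h4F M hM) ≠ 0) :
    v.ord (h4F M hM) ∣ (M : ℤ) := by
  rcases lt_or_gt_of_ne hv with h | h
  · have e := ram4_pole (h2F_eq_h4F M hM) v h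
    have d := ord_h2F_dvd M (two_dvd_of_four_dvd hM) v (by rw [e]; omega)
    rw [e] at d
    exact dvd_of_mul_left_dvd d
  · have e := ram4_zero (h2F_eq_h4F M hM) v h
    have d := ord_h2F_dvd M (two_dvd_of_four_dvd hM) v (by rw [e]; omega)
    rwa [e] at d

theorem ord_one_add_h4F_dvd (hM : 4 ∣ M) (v : Place Kbar (FN M))
    (hv : 0 < v.ord (1 + 16 * h4F M hM)) : v.ord (1 + 16 * h4F M hM) ∣ (M : ℤ) := by
  have e := ram4_mid (h2F_eq_h4F M hM) v hv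
  have d := ord_h2F_dvd M (two_dvd_of_four_dvd hM) v (by rw [e]; omega)
  rwa [e] at d

theorem ord_h9F_dvd (hM : 9 ∣ M) (v : Place Kbar (FN M)) (hv : v.ord (h9F M hM) ≠ 0) :
    v.ord (h9F M hM) ∣ (M : ℤ) := by
  rcases lt_or_gt_of_ne hv with h | h
  · have e := ram9_pole (h3F_eq_h9F M hM) v h
    have d := ord_h3F_dvd M (three_dvd_of_nine_dvd hM) v (by rw [e]; omega)
    rw [e] at d
    exact dvd_of_mul_left_dvd d
  · have e := ram9_zero (h3F_eq_h9F M hM) v h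
    have d := ord_h3F_dvd M (three_dvd_of_nine_dvd hM) v (by rw [e]; omega)
    rwa [e] at d

theorem ord_one_add_h9F_dvd (hM : 9 ∣ M) (v : Place Kbar (FN M))
    (hv : 0 < v.ord (1 + 9 * h9F M hM + 27 * h9F M hM ^ 2)) :
    v.ord (1 + 9 * h9F M hM + 27 * h9F M hM ^ 2) ∣ (M : ℤ) := by
  have e := ram9_mid (h3F_eq_h9F M hM) v hv
  have d := ord_h3F_dvd M (three_dvd_of_nine_dvd hM) v (by rw [e]; omega)
  rwa [e] at d

/-- the cusps are the zeros and poles of `h₄` and the zeros of `1 + 16 h₄` -/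
theorem ord_jF_neg_iff_h4F (hM : 4 ∣ M) (v : Place Kbar (FN M)) :
    v.ord (jF M) < 0 ↔ v.ord (h4F M hM) ≠ 0 ∨ 0 < v.ord (1 + 16 * h4F M hM) := by
  have H2 := jF_mul_h2F M (two_dvd_of_four_dvd hM)
  have key : v.ord (jF M) < 0 ↔ v.ord (h2F M (two_dvd_of_four_dvd hM)) ≠ 0 := by
    constructor
    · exact ram2_of_pole H2 v
    · intro h
      rcases lt_or_gt_of_ne h with h | h
      · rw [ram2_pole H2 v h]; omega
      · rw [ram2_zero H2 v h]; omega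
  rw [key]
  constructor
  · exact ram4_of_ne (h2F_eq_h4F M hM) v
  · rintro (h | h)
    · rcases lt_or_gt_of_ne h with h | h
      · rw [ram4_pole (h2F_eq_h4F M hM) v h]; omega
      · rw [ram4_zero (h2F_eq_h4F M hM) v h]; omega
    · rw [ram4_mid (h2F_eq_h4F M hM) v h]; omega

/-- the cusps are the zeros and poles of `h₉` and the zeros of `1 + 9 h₉ + 27 h₉²` -/
theorem ord_jF_neg_iff_h9F (hM : 9 ∣ M) (v : Place Kbar (FN M)) :
    v.ord (jF M) < 0 ↔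
      v.ord (h9F M hM) ≠ 0 ∨ 0 < v.ord (1 + 9 * h9F M hM + 27 * h9F M hM ^ 2) := by
  have H3 := jF_mul_h3F M (three_dvd_of_nine_dvd hM)
  have key : v.ord (jF M) < 0 ↔ v.ord (h3F M (three_dvd_of_nine_dvd hM)) ≠ 0 := by
    constructor
    · exact ram3_of_pole H3 v
    · intro h
      rcases lt_or_gt_of_ne h with h | h
      · rw [ram3_pole H3 v h]; omega
      · rw [ram3_zero H3 v h]; omega
  rw [key]
  constructor
  · exact ram9_of_ne (h3F_eq_h9F M hM) v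
  · rintro (h | h)
    · rcases lt_or_gt_of_ne h with h | h
      · rw [ram9_pole (h3F_eq_h9F M hM) v h]; omega
      · rw [ram9_zero (h3F_eq_h9F M hM) v h]; omega
    · rw [ram9_mid (h3F_eq_h9F M hM) v h]; omega

/-- `FN M` is finite over `ℚ̄(h₄)`, `ℚ̄(h₉)` -/
theorem finiteDimensional_h4F (hM : 4 ∣ M) :
    FiniteDimensional (IntermediateField.adjoin Kbar {h4F M hM}) (FN M) :=
  (Export.isFF1 M).finite _ (transcendental_h4F M hM)

theorem finiteDimensional_h9F (hM : 9 ∣ M) :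
    FiniteDimensional (IntermediateField.adjoin Kbar {h9F M hM}) (FN M) :=
  (Export.isFF1 M).finite _ (transcendental_h9F M hM)

end Fermat.Agent.Lib.Hauptmodul
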