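/-
The Hauptmoduln `h₄` (`ℓ` odd, `4 ∣ M`) and `h₉` (`ℓ ≠ 3`, `9 ∣ M`) as EXPLICIT base coordinates
`S18.BaseData M ℓ` whose branch polynomials `g₁`, `g₂` only contain the cusps
(no elliptic points).  Owner helper208.
-/
import Fermat.Agent.S18.Base.Bases
import Fermat.Agent.Lib.Hauptmodul49.Bar

set_option autoImplicit false

noncomputable section

namespace Fermat.Agent.Lib.Hauptmodul

open Polynomial IntermediateField ModularCurve AlgebraicCurve Fermat.Agent.S24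
open Fermat.Agent.S24.FF Fermat.Agent.S18 Fermat.Agent.S18.Base

/-! ### the general builder (data) -/

/-- A `BaseData` from a coordinate `x = q^e * unit`. -/
def mkBaseData (M ℓ : ℕ) (e : ℤ) (he : e ≠ 0) (u : PowerSeries ℤ)
    (hu : PowerSeries.constantCoeff u = 1)
    (mem : coeffMap (Int.castRingHom ℚ) (mkX e u) ∈ modularFunctionFieldFull M)
    (j_mem : jq ∈ ℚ⟮coeffMap (Int.castRingHom ℚ) (mkX e u)⟯)
    (x : FN M)
    (hx : (x : LaurentSeries Kbar) = coeffEmb Kbar (coeffMap (Int.castRingHom ℚ) (mkX e u)))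
    (g₁ g₂ : ℤ[X])
    (sep₁ : (g₁.map (Int.castRingHom (ZMod ℓ))).Separable)
    (sep₂ : (g₂.map (Int.castRingHom (ZMod ℓ))).Separable)
    (ram₁ : ∀ (v : Place Kbar (FN M)) (c : Kbar), (g₁.map (Int.castRingHom Kbar)).eval c ≠ 0 →
      0 < v.ord (x - algebraMap Kbar (FN M) c) → v.ord (x - algebraMap Kbar (FN M) c) = 1)
    (ram₂ : ∀ (v : Place Kbar (FN M)) (c : Kbar), (g₂.map (Int.castRingHom Kbar)).eval c ≠ 0 →
      0 < v.ord (x⁻¹ - algebraMap Kbar (FN M) c) → v.ord (x⁻¹ - algebraMap Kbar (FN M) c) = 1) :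
    BaseData M ℓ where
  X := mkX e u
  Xinv := mkX (-e) (u.invOfUnit 1)
  mul_inv := mkX_mul_inv e u hu
  order_ne := by rw [order_mkX e u hu]; exact he
  mem := mem
  j_mem := j_mem
  g₁ := g₁
  g₂ := g₂
  sep₁ := sep₁
  sep₂ := sep₂
  ram₁ := by
    have hxe : (⟨_, coeffEmb_mem_laurentBaseChange Kbar mem⟩ : FN M) = x := Subtype.ext hx.symm
    intro v c hc hv
    rw [hxe] at hv ⊢
    exact ram₁ v c hc hv
  ram₂ := by
    have hxe : (⟨_, coeffEmb_mem_laurentBaseChange Kbar mem⟩ : FN M) = x := Subtype.ext hx.symm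
    intro v c hc hv
    rw [hxe] at hv ⊢
    exact ram₂ v c hc hv

/-! ### level 4 -/

theorem coeffMap_mkX_u4Z : coeffMap (Int.castRingHom ℚ) (mkX 1 u4Z) = h4q := coeffMap_mkX_one u4Z

theorem coeffMap_mkX_u9Z : coeffMap (Int.castRingHom ℚ) (mkX 1 u9Z) = h9q := coeffMap_mkX_one u9Z

theorem jq_mem_adjoin_h4q : jq ∈ ℚ⟮h4q⟯ := by
  have h1 : jq ∈ modularFunctionFieldFull 4 := by
    have h := jqd_mem_full 4 (one_dvd 4)
    rwa [qExpand_one_apply] at h
  rw [← modularFunctionFieldFullC_rat, modularFunctionFieldFullC_four] at h1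
  exact h1

theorem jq_mem_adjoin_h9q : jq ∈ ℚ⟮h9q⟯ := by
  have h1 : jq ∈ modularFunctionFieldFull 9 := by
    have h := jqd_mem_full 9 (one_dvd 9)
    rwa [qExpand_one_apply] at h
  rw [← modularFunctionFieldFullC_rat, modularFunctionFieldFullC_nine] at h1
  exact h1

theorem isUnit_sixteen {ℓ : ℕ} (hℓ : ¬ 2 ∣ ℓ) : IsUnit ((16 : ℤ) : ZMod ℓ) := by
  have h1 : Nat.Coprime 16 ℓ := by
    have : Nat.Coprime 2 ℓ := (Nat.Prime.coprime_iff_not_dvd Nat.prime_two).2 hℓ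
    exact Nat.Coprime.pow_left 4 this
  have h2 := (ZMod.isUnit_iff_coprime 16 ℓ).2 h1
  simpa using h2

/-- **`h₄` as a base coordinate** (`ℓ` odd): `g₁ = 16 X² + X`, `g₂ = X² + 16 X`. -/
def baseData4 (M ℓ : ℕ) [NeZero M] (hM : 4 ∣ M) (hℓ : ¬ 2 ∣ ℓ) : BaseData M ℓ :=
  mkBaseData M ℓ 1 one_ne_zero u4Z constantCoeff_u4Z
    (by rw [coeffMap_mkX_u4Z]; exact full_degeneracy_le hM h4q_mem)
    (by rw [coeffMap_mkX_u4Z]; exact jq_mem_adjoin_h4q)
    (h4F M hM) (by rw [coeffMap_mkX_u4Z]; rfl)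
    (C 16 * X ^ 2 + C 1 * X) (C 1 * X ^ 2 + C 16 * X)
    (by rw [map_quad]; exact separable_quad _ _ (by simp))
    (by rw [map_quad]; exact separable_quad _ _ (by simpa using isUnit_sixteen hℓ))
    (by
      intro v c hc hv
      obtain ⟨h0, h1⟩ := eval_quad_ne hc
      exact ord_h4F_sub_eq_one M hM c h0 (by simpa using h1) v hv)
    (by
      intro v c hc hv
      obtain ⟨h0, h1⟩ := eval_quad_ne hc
      have e1 := ord_inv_sub (h4F M hM) v c h0 hv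
      rw [e1] at hv ⊢
      refine ord_h4F_sub_eq_one M hM c⁻¹ (inv_ne_zero h0) ?_ v hv
      intro h2
      apply h1
      field_simp at h2
      push_cast
      linear_combination h2)

/-! ### level 9 -/

section Sep

variable {R : Type*} [CommRing R]

/-- `27 X³ + 9 X² + X` is separable over every ring: `(1 + 9X) g' - 27 g = 1`. -/
theorem separable_cubic₁ : (C 27 * X ^ 3 + C 9 * X ^ 2 + X : R[X]).Separable := by
  have hd : derivative (C 27 * X ^ 3 + C 9 * X ^ 2 + X : R[X]) = C 81 * X ^ 2 + C 18 * X + 1 := by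
    simp only [derivative_add, derivative_mul, derivative_C, derivative_X_pow, derivative_X,
      zero_mul, zero_add, mul_one]
    norm_num
    simp only [map_ofNat]
    ring
  rw [Polynomial.separable_def, hd]
  refine ⟨-C 27, 1 + C 9 * X, ?_⟩
  simp only [map_ofNat]
  ring

/-- `X³ + 9 X² + 27 X` is separable as soon as `3` is a unit: `(X + 3) g' - 3 g = 81`. -/
theorem separable_cubic₂ (h3 : IsUnit (3 : R)) :
    (X ^ 3 + C 9 * X ^ 2 + C 27 * X : R[X]).Separable := by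
  obtain ⟨b, hb⟩ := h3.exists_left_inv
  have hd : derivative (X ^ 3 + C 9 * X ^ 2 + C 27 * X : R[X]) = C 3 * X ^ 2 + C 18 * X + C 27 := by
    simp only [derivative_add, derivative_mul, derivative_C, derivative_X_pow, derivative_X,
      zero_mul, zero_add, mul_one]
    norm_num
    simp only [map_ofNat]
    ring
  rw [Polynomial.separable_def, hd]
  refine ⟨-C (b ^ 4) * C 3, C (b ^ 4) * (X + C 3), ?_⟩
  have h1 : (C (b ^ 4) : R[X]) * 81 = 1 := by
    have : b ^ 4 * 81 = 1 := by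
      calc b ^ 4 * 81 = (b * 3) ^ 4 := by ring
        _ = 1 := by rw [hb, one_pow]
    rw [show (81 : R[X]) = C 81 from (map_ofNat C 81).symm, ← C_mul, this, C_1]
  calc _ = (C (b ^ 4) : R[X]) * 81 := by
        simp only [map_ofNat]
        ring
    _ = 1 := h1

end Sep

theorem map_cubic₁ {S : Type*} [CommRing S] (f : ℤ →+* S) :
    (C 27 * X ^ 3 + C 9 * X ^ 2 + X : ℤ[X]).map f = C 27 * X ^ 3 + C 9 * X ^ 2 + X := by
  simp only [Polynomial.map_add, Polynomial.map_mul, Polynomial.map_pow, Polynomial.map_C,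
    Polynomial.map_X]
  simp only [map_ofNat]

theorem map_cubic₂ {S : Type*} [CommRing S] (f : ℤ →+* S) :
    (X ^ 3 + C 9 * X ^ 2 + C 27 * X : ℤ[X]).map f = X ^ 3 + C 9 * X ^ 2 + C 27 * X := by
  simp only [Polynomial.map_add, Polynomial.map_mul, Polynomial.map_pow, Polynomial.map_C,
    Polynomial.map_X]
  simp only [map_ofNat]

theorem eval_cubic₁_ne {c : Kbar}
    (h : ((C 27 * X ^ 3 + C 9 * X ^ 2 + X : ℤ[X]).map (Int.castRingHom Kbar)).eval c ≠ 0) :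
    c ≠ 0 ∧ 1 + 9 * c + 27 * c ^ 2 ≠ 0 := by
  rw [map_cubic₁] at h
  simp only [eval_add, eval_mul, eval_C, eval_pow, eval_X] at h
  constructor
  · rintro rfl
    simp at h
  · intro h0
    apply h
    linear_combination c * h0

theorem eval_cubic₂_ne {c : Kbar}
    (h : ((X ^ 3 + C 9 * X ^ 2 + C 27 * X : ℤ[X]).map (Int.castRingHom Kbar)).eval c ≠ 0) :
    c ≠ 0 ∧ c ^ 2 + 9 * c + 27 ≠ 0 := by
  rw [map_cubic₂] at h
  simp only [eval_add, eval_mul, eval_C, eval_pow, eval_X] at h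
  constructor
  · rintro rfl
    simp at h
  · intro h0
    apply h
    linear_combination c * h0

theorem isUnit_three {ℓ : ℕ} (hℓ : ¬ 3 ∣ ℓ) : IsUnit (3 : ZMod ℓ) := by
  have h1 : Nat.Coprime 3 ℓ := (Nat.Prime.coprime_iff_not_dvd Nat.prime_three).2 hℓ
  have h2 := (ZMod.isUnit_iff_coprime 3 ℓ).2 h1
  simpa using h2

/-- **`h₉` as a base coordinate** (`3 ∤ ℓ`): `g₁ = 27 X³ + 9 X² + X`, `g₂ = X³ + 9 X² + 27 X`. -/
def baseData9 (M ℓ : ℕ) [NeZero M] (hM : 9 ∣ M) (hℓ : ¬ 3 ∣ ℓ) : BaseData M ℓ :=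
  mkBaseData M ℓ 1 one_ne_zero u9Z constantCoeff_u9Z
    (by rw [coeffMap_mkX_u9Z]; exact full_degeneracy_le hM h9q_mem)
    (by rw [coeffMap_mkX_u9Z]; exact jq_mem_adjoin_h9q)
    (h9F M hM) (by rw [coeffMap_mkX_u9Z]; rfl)
    (C 27 * X ^ 3 + C 9 * X ^ 2 + X) (X ^ 3 + C 9 * X ^ 2 + C 27 * X)
    (by rw [map_cubic₁]; exact separable_cubic₁)
    (by rw [map_cubic₂]; exact separable_cubic₂ (isUnit_three hℓ))
    (by
      intro v c hc hv
      obtain ⟨h0, h1⟩ := eval_cubic₁_ne hc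
      exact ord_h9F_sub_eq_one M hM c h0 h1 v hv)
    (by
      intro v c hc hv
      obtain ⟨h0, h1⟩ := eval_cubic₂_ne hc
      have e1 := ord_inv_sub (h9F M hM) v c h0 hv
      rw [e1] at hv ⊢
      refine ord_h9F_sub_eq_one M hM c⁻¹ (inv_ne_zero h0) ?_ v hv
      intro h2
      apply h1
      field_simp at h2
      linear_combination h2)

/-! ### the coordinates over an arbitrary field -/

section Field

variable (K : Type*) [Field K] [Algebra ℚ K] (M ℓ : ℕ) [NeZero M]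

/-- `h₄` in `FK K M`, `4 ∣ M` -/
def h4K (hM : 4 ∣ M) : FK K M :=
  ⟨coeffEmb K h4q, coeffEmb_mem_laurentBaseChange K (full_degeneracy_le hM h4q_mem)⟩

/-- `h₉` in `FK K M`, `9 ∣ M` -/
def h9K (hM : 9 ∣ M) : FK K M :=
  ⟨coeffEmb K h9q, coeffEmb_mem_laurentBaseChange K (full_degeneracy_le hM h9q_mem)⟩

theorem coe_h4K (hM : 4 ∣ M) : ((h4K K M hM : FK K M) : LaurentSeries K) = toL K h4Z := by
  show coeffMap (algebraMap ℚ K) (toL ℚ h4Z) = toL K h4Z
  exact coeffMap_toL _ _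

theorem coe_h9K (hM : 9 ∣ M) : ((h9K K M hM : FK K M) : LaurentSeries K) = toL K h9Z := by
  show coeffMap (algebraMap ℚ K) (toL ℚ h9Z) = toL K h9Z
  exact coeffMap_toL _ _

theorem baseData4_xK (hM : 4 ∣ M) (hℓ : ¬ 2 ∣ ℓ) : (baseData4 M ℓ hM hℓ).xK K = h4K K M hM := by
  apply Subtype.ext
  show coeffEmb K (coeffMap (Int.castRingHom ℚ) (mkX 1 u4Z)) = coeffEmb K h4q
  rw [coeffMap_mkX_u4Z]

theorem baseData9_xK (hM : 9 ∣ M) (hℓ : ¬ 3 ∣ ℓ) : (baseData9 M ℓ hM hℓ).xK K = h9K K M hM := by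
  apply Subtype.ext
  show coeffEmb K (coeffMap (Int.castRingHom ℚ) (mkX 1 u9Z)) = coeffEmb K h9q
  rw [coeffMap_mkX_u9Z]

theorem baseData4_g₁ (hM : 4 ∣ M) (hℓ : ¬ 2 ∣ ℓ) :
    (baseData4 M ℓ hM hℓ).g₁ = C 16 * X ^ 2 + C 1 * X := rfl

theorem baseData4_g₂ (hM : 4 ∣ M) (hℓ : ¬ 2 ∣ ℓ) :
    (baseData4 M ℓ hM hℓ).g₂ = C 1 * X ^ 2 + C 16 * X := rfl

theorem baseData9_g₁ (hM : 9 ∣ M) (hℓ : ¬ 3 ∣ ℓ) :
    (baseData9 M ℓ hM hℓ).g₁ = C 27 * X ^ 3 + C 9 * X ^ 2 + X := rfl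

theorem baseData9_g₂ (hM : 9 ∣ M) (hℓ : ¬ 3 ∣ ℓ) :
    (baseData9 M ℓ hM hℓ).g₂ = X ^ 3 + C 9 * X ^ 2 + C 27 * X := rfl

end Field

end Fermat.Agent.Lib.Hauptmodul

end
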